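import Mathlib
import Fermat.Agent.H27.Igusa.Defs

/-!
# P-IGUSA, subtask IG-Dlocal: irreducibility over `k((t^p))`

helper76.  `L = k((t))`, `φ = qExpand k p : f(t) ↦ f(t^p)`, `τ = twist ζ : f(t) ↦ f(ζ t)`.
-/

set_option autoImplicit false

noncomputable section

open ModularCurve Fermat.Agent.H27 Polynomial

namespace Fermat.Agent.H76

variable {k : Type*}

section CommRing

variable [CommRing k]

theorem twist_twist (ζ ξ : kˣ) (f : LaurentSeries k) :
    twist ζ (twist ξ f) = twist (ζ * ξ) f := by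
  ext n
  simp only [twist_coeff, mul_zpow, Units.val_mul]
  ring

theorem twist_one (f : LaurentSeries k) : twist (1 : kˣ) f = f := by
  ext n
  simp

theorem twist_qExpand (p : ℕ) [NeZero p] (ζ : kˣ) (hζ : ζ ^ p = 1) (f : LaurentSeries k) :
    twist ζ (qExpand k p f) = qExpand k p f := by
  ext n
  rw [twist_coeff]
  by_cases hn : (p : ℤ) ∣ n
  · obtain ⟨m, rfl⟩ := hn
    have : ζ ^ ((p : ℤ) * m) = 1 := by
      rw [zpow_mul, zpow_natCast, hζ, one_zpow]
    rw [this, Units.val_one, one_mul]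
  · rw [qExpand_coeff_of_not_dvd p f hn, mul_zero]

/-- A Laurent series lies in the range of `qExpand k p` iff it is supported on `pℤ`. -/
theorem mem_range_qExpand_iff (p : ℕ) [NeZero p] (f : LaurentSeries k) :
    f ∈ Set.range (qExpand k p) ↔ ∀ n : ℤ, ¬ (p : ℤ) ∣ n → f.coeff n = 0 := by
  constructor
  · rintro ⟨g, rfl⟩ n hn
    exact qExpand_coeff_of_not_dvd p g hn
  · intro h
    have hp0 : (0 : ℤ) < p := by exact_mod_cast Nat.pos_of_ne_zero (NeZero.ne p)
    -- the support of `m ↦ f.coeff (p * m)` is bounded below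
    have hbdd : BddBelow (Function.support fun m : ℤ => f.coeff ((p : ℤ) * m)) := by
      by_cases hf : f = 0
      · subst hf
        simp
      · refine ⟨min f.order 0, ?_⟩
        intro m hm
        simp only [Function.mem_support, ne_eq] at hm
        have h1 : f.order ≤ (p : ℤ) * m := HahnSeries.order_le_of_coeff_ne_zero hm
        rcases le_or_gt 0 m with hm0 | hm0
        · exact (min_le_right _ _).trans hm0
        · have h2 : (p : ℤ) * m ≤ m := by nlinarith
          exact (min_le_left _ _).trans (h1.trans h2)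
    refine ⟨HahnSeries.ofSuppBddBelow (fun m : ℤ => f.coeff ((p : ℤ) * m)) hbdd, ?_⟩
    ext n
    by_cases hn : (p : ℤ) ∣ n
    · obtain ⟨m, rfl⟩ := hn
      rw [qExpand_coeff_mul]
      rfl
    · rw [qExpand_coeff_of_not_dvd p _ hn, h n hn]

end CommRing


section Field

variable [Field k]

theorem zpow_eq_one_iff_of_isPrimitiveRoot (p : ℕ) (ζ : kˣ) (hζ : IsPrimitiveRoot (ζ : k) p)
    (n : ℤ) : ζ ^ n = 1 ↔ (p : ℤ) ∣ n :=
  (IsPrimitiveRoot.coe_units_iff.mp hζ).zpow_eq_one_iff_dvd n

/-- The fixed points of `twist ζ` (`ζ` a primitive `p`-th root of unity) are exactly the series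
in `t^p`. -/
theorem twist_eq_self_iff (p : ℕ) [NeZero p] (ζ : kˣ) (hζ : IsPrimitiveRoot (ζ : k) p)
    (f : LaurentSeries k) : twist ζ f = f ↔ f ∈ Set.range (qExpand k p) := by
  constructor
  · intro h
    rw [mem_range_qExpand_iff]
    intro n hn
    have h1 : (twist ζ f).coeff n = f.coeff n := by rw [h]
    rw [twist_coeff] at h1
    have h2 : ((ζ ^ n : kˣ) : k) ≠ 1 := by
      intro h3
      exact hn ((zpow_eq_one_iff_of_isPrimitiveRoot p ζ hζ n).mp (Units.ext h3))
    have h3 : (((ζ ^ n : kˣ) : k) - 1) * f.coeff n = 0 := by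
      rw [sub_mul, h1, one_mul, sub_self]
    rcases mul_eq_zero.mp h3 with h4 | h4
    · exact absurd (sub_eq_zero.mp h4) h2
    · exact h4
  · rintro ⟨g, rfl⟩
    refine twist_qExpand p ζ ?_ g
    have := (zpow_eq_one_iff_of_isPrimitiveRoot p ζ hζ p).mpr dvd_rfl
    simpa using this

/-- The conjugates `y(ζ^b t)`, `b < p`, of a series `y ∉ k((t^p))` are pairwise distinct. -/
theorem twist_pow_injOn (p : ℕ) [NeZero p] (hp : p.Prime) (ζ : kˣ)
    (hζ : IsPrimitiveRoot (ζ : k) p) (y : LaurentSeries k) (hy : y ∉ Set.range (qExpand k p)) :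
    Set.InjOn (fun b : ℕ => twist (ζ ^ b) y) (Finset.range p : Set ℕ) := by
  rw [mem_range_qExpand_iff] at hy
  simp only [not_forall] at hy
  obtain ⟨n, hn, hyn⟩ := hy
  intro b hb c hc hbc
  simp only [Finset.coe_range, Set.mem_Iio] at hb hc
  have h1 : (twist (ζ ^ b) y).coeff n = (twist (ζ ^ c) y).coeff n := by
    simpa using congrArg (fun f : LaurentSeries k => f.coeff n) hbc
  rw [twist_coeff, twist_coeff] at h1
  have h2 : (((ζ ^ b) ^ n : kˣ) : k) = (((ζ ^ c) ^ n : kˣ) : k) := mul_right_cancel₀ hyn h1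
  have h3 : (ζ ^ b) ^ n = (ζ ^ c) ^ n := Units.ext h2
  have h4 : ζ ^ (((b : ℤ) - c) * n) = 1 := by
    rw [sub_mul, zpow_sub, zpow_mul, zpow_mul, zpow_natCast, zpow_natCast, h3, mul_inv_cancel]
  have h5 : (p : ℤ) ∣ ((b : ℤ) - c) * n := (zpow_eq_one_iff_of_isPrimitiveRoot p ζ hζ _).mp h4
  have hpZ : Prime (p : ℤ) := Nat.prime_iff_prime_int.mp hp
  rcases hpZ.dvd_or_dvd h5 with h6 | h6
  · have h7 : ((b : ℤ) - c) = 0 := by
      apply Int.eq_zero_of_abs_lt_dvd h6
      rw [abs_lt]
      constructor <;> omega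
    omega
  · exact absurd h6 hn

/-- The product `∏_{b<p} (X - y(ζ^b t))`. -/
def prodTwist (p : ℕ) (ζ : kˣ) (y : LaurentSeries k) : Polynomial (LaurentSeries k) :=
  ∏ b ∈ Finset.range p, (Polynomial.X - Polynomial.C (twist (ζ ^ b) y))

theorem prodTwist_monic (p : ℕ) (ζ : kˣ) (y : LaurentSeries k) : (prodTwist p ζ y).Monic :=
  Polynomial.monic_prod_of_monic _ _ fun _ _ => Polynomial.monic_X_sub_C _

theorem prodTwist_natDegree (p : ℕ) (ζ : kˣ) (y : LaurentSeries k) :
    (prodTwist p ζ y).natDegree = p := by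
  rw [prodTwist, Polynomial.natDegree_prod_of_monic _ _ fun _ _ => Polynomial.monic_X_sub_C _]
  simp

theorem prodTwist_map_twist (p : ℕ) [NeZero p] (ζ : kˣ) (hζ : IsPrimitiveRoot (ζ : k) p)
    (y : LaurentSeries k) : (prodTwist p ζ y).map (twist ζ) = prodTwist p ζ y := by
  have hζp : ζ ^ p = 1 := by
    have := (zpow_eq_one_iff_of_isPrimitiveRoot p ζ hζ p).mpr dvd_rfl
    simpa using this
  have h1 : (prodTwist p ζ y).map (twist ζ) =
      ∏ b ∈ Finset.range p, (Polynomial.X - Polynomial.C (twist (ζ ^ (b + 1)) y)) := by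
    rw [prodTwist, Polynomial.map_prod]
    refine Finset.prod_congr rfl fun b _ => ?_
    rw [Polynomial.map_sub, Polynomial.map_X, Polynomial.map_C, twist_twist, pow_succ']
  rw [h1]
  have h2 := Finset.prod_range_succ'
    (fun b => (Polynomial.X - Polynomial.C (twist (ζ ^ b) y) : Polynomial (LaurentSeries k))) p
  have h3 := Finset.prod_range_succ
    (fun b => (Polynomial.X - Polynomial.C (twist (ζ ^ b) y) : Polynomial (LaurentSeries k))) p
  rw [h3] at h2
  simp only [hζp, pow_zero] at h2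
  have hne : (Polynomial.X - Polynomial.C (twist (1 : kˣ) y) : Polynomial (LaurentSeries k)) ≠ 0 :=
    Polynomial.X_sub_C_ne_zero _
  exact (mul_right_cancel₀ hne h2).symm

theorem prodTwist_mem_lifts (p : ℕ) [NeZero p] (ζ : kˣ) (hζ : IsPrimitiveRoot (ζ : k) p)
    (y : LaurentSeries k) : prodTwist p ζ y ∈ Polynomial.lifts (qExpand k p) := by
  rw [Polynomial.lifts_iff_coeff_lifts]
  intro n
  rw [← twist_eq_self_iff p ζ hζ]
  have := congrArg (fun q : Polynomial (LaurentSeries k) => q.coeff n) (prodTwist_map_twist p ζ hζ y)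
  simpa [Polynomial.coeff_map] using this

/-- Every root in `k((t))` of a non-constant polynomial with coefficients in `k((t^p))` dividing
`∏_{b<p} (X - y(ζ^b t))` forces degree `≥ p`. -/
theorem le_natDegree_of_map_dvd (p : ℕ) [NeZero p] (hp : p.Prime) (ζ : kˣ)
    (hζ : IsPrimitiveRoot (ζ : k) p) (y : LaurentSeries k) (hy : y ∉ Set.range (qExpand k p))
    (a : Polynomial (LaurentSeries k)) (ha : a.map (qExpand k p) ∣ prodTwist p ζ y)
    (hdeg : a.natDegree ≠ 0) : p ≤ a.natDegree := by
  have hζp : ζ ^ p = 1 := by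
    have := (zpow_eq_one_iff_of_isPrimitiveRoot p ζ hζ p).mpr dvd_rfl
    simpa using this
  set A := a.map (qExpand k p) with hA
  have hAdeg : A.natDegree = a.natDegree :=
    Polynomial.natDegree_map_eq_of_injective (qExpand_injective (R := k) p) a
  have hG0 : prodTwist p ζ y ≠ 0 := (prodTwist_monic p ζ y).ne_zero
  have hA0 : A ≠ 0 := fun h => hG0 (by simpa [h] using ha)
  -- `A` splits since it divides a split polynomial
  have hsplitG : (prodTwist p ζ y).Splits := by
    rw [prodTwist]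
    exact Polynomial.Splits.prod fun b _ => Polynomial.Splits.X_sub_C _
  have hsplitA : A.Splits := hsplitG.of_dvd hG0 ha
  have hAdeg' : A.degree ≠ 0 := by
    rw [Polynomial.degree_eq_natDegree hA0, hAdeg]
    exact_mod_cast hdeg
  obtain ⟨x, hx⟩ := hsplitA.exists_eval_eq_zero hAdeg'
  -- the root is one of the conjugates
  have hxG : (prodTwist p ζ y).eval x = 0 := by
    obtain ⟨B, hB⟩ := ha
    rw [hB, Polynomial.eval_mul, hx, zero_mul]
  rw [prodTwist, Polynomial.eval_prod, Finset.prod_eq_zero_iff] at hxG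
  obtain ⟨b₀, -, hb₀⟩ := hxG
  rw [Polynomial.eval_sub, Polynomial.eval_X, Polynomial.eval_C, sub_eq_zero] at hb₀
  -- all conjugates are roots
  have hroot : ∀ j : ℕ, A.eval (twist (ζ ^ j) y) = 0 := by
    intro j
    -- apply `twist (ζ ^ j * (ζ ^ b₀)⁻¹)` to `A.eval x = 0`
    set ξ : kˣ := ζ ^ j * (ζ ^ b₀)⁻¹ with hξ
    have hξp : ξ ^ p = 1 := by
      rw [hξ, mul_pow, inv_pow, ← pow_mul, ← pow_mul, mul_comm j p, mul_comm b₀ p, pow_mul, pow_mul,
        hζp, one_pow, one_pow, inv_one, mul_one]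
    have hmap : A.map (twist ξ) = A := by
      rw [hA, Polynomial.map_map]
      congr 1
      ext f : 1
      exact twist_qExpand p ξ hξp f
    have h1 : twist ξ (A.eval x) = (A.map (twist ξ)).eval (twist ξ x) :=
      ((Polynomial.eval_map (twist ξ) (twist ξ x)).trans
        (Polynomial.eval₂_at_apply (twist ξ) x)).symm
    rw [hx, map_zero, hmap, hb₀, twist_twist, hξ, inv_mul_cancel_right] at h1
    exact h1.symm
  -- count the roots
  classical
  have hinj := twist_pow_injOn p hp ζ hζ y hy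
  let Z : Finset (LaurentSeries k) := (Finset.range p).image (fun b : ℕ => twist (ζ ^ b) y)
  have hZcard : Z.card = p := by
    rw [Finset.card_image_of_injOn hinj, Finset.card_range]
  have hZ : Z.val ⊆ A.roots := by
    intro z hz
    rw [Finset.mem_val, Finset.mem_image] at hz
    obtain ⟨b, -, rfl⟩ := hz
    rw [Polynomial.mem_roots hA0]
    exact hroot b
  have := Polynomial.card_le_degree_of_subset_roots hZ
  rw [hZcard, hAdeg] at this
  exact this

/-- **IG-Dlocal.** If `y ∉ k((t^p))` then `∏_{b<p} (X - y(ζ^b t))` is (the image of) an irreducible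
polynomial over `k((t^p)) ≅ k((t))`. -/
theorem irreducible_prod_twist (k : Type*) [Field k] (p : ℕ) [NeZero p] (hp : p.Prime) (ζ : kˣ)
    (hζ : IsPrimitiveRoot (ζ : k) p) (y : LaurentSeries k) (hy : y ∉ Set.range (qExpand k p)) :
    ∃ g : Polynomial (LaurentSeries k), Irreducible g ∧
      g.map (qExpand k p) =
        ∏ b ∈ Finset.range p, (Polynomial.X - Polynomial.C (twist (ζ ^ b) y)) := by
  obtain ⟨g, hg⟩ := (Polynomial.mem_lifts _).mp (prodTwist_mem_lifts p ζ hζ y)
  refine ⟨g, ?_, hg⟩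
  have hinj : Function.Injective (qExpand k p) := qExpand_injective (R := k) p
  have hgdeg : g.natDegree = p := by
    rw [← Polynomial.natDegree_map_eq_of_injective hinj g, hg, prodTwist_natDegree]
  have hg0 : g ≠ 0 := by
    intro h
    rw [h, Polynomial.natDegree_zero] at hgdeg
    exact hp.ne_zero hgdeg.symm
  rw [irreducible_iff]
  refine ⟨fun hu => ?_, fun a b hab => ?_⟩
  · have := Polynomial.natDegree_eq_zero_of_isUnit hu
    rw [hgdeg] at this
    exact hp.ne_zero this
  · have ha0 : a ≠ 0 := fun h => hg0 (by rw [hab, h, zero_mul])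
    have hb0 : b ≠ 0 := fun h => hg0 (by rw [hab, h, mul_zero])
    have hdeg : a.natDegree + b.natDegree = p := by
      rw [← Polynomial.natDegree_mul ha0 hb0, ← hab, hgdeg]
    have hadvd : a.map (qExpand k p) ∣ prodTwist p ζ y := by
      rw [← hg, hab, Polynomial.map_mul]
      exact dvd_mul_right _ _
    have hbdvd : b.map (qExpand k p) ∣ prodTwist p ζ y := by
      rw [← hg, hab, Polynomial.map_mul]
      exact dvd_mul_left _ _
    by_cases hda : a.natDegree = 0
    · left
      rw [Polynomial.isUnit_iff]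
      rw [Polynomial.natDegree_eq_zero] at hda
      obtain ⟨c, rfl⟩ := hda
      refine ⟨c, ?_, rfl⟩
      rw [isUnit_iff_ne_zero]
      rintro rfl
      exact ha0 (by simp)
    · right
      have h1 := le_natDegree_of_map_dvd p hp ζ hζ y hy a hadvd hda
      have hdb : b.natDegree = 0 := by omega
      rw [Polynomial.isUnit_iff]
      rw [Polynomial.natDegree_eq_zero] at hdb
      obtain ⟨c, rfl⟩ := hdb
      refine ⟨c, ?_, rfl⟩
      rw [isUnit_iff_ne_zero]
      rintro rfl
      exact hb0 (by simp)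

end Field

end Fermat.Agent.H76
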