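import Fermat.Agent.H13.S14ThaineDefs

/-!
# Interfaces for the F-side of sub-project C3 (Thaine's relation) of P-S14

Target of the F-side: `Fermat.Agent.H13.ThaineDatumStatement`
(the K-side `ThaineDatumStatement → ThaineStatement` is row `C3-K`).
Each interface below is a `Prop`; sub-teams prove
`theorem … : Fermat.Agent.H76.XStatement` in their own directory.

Notation: `K = ℚ(ζ_p)`, `P` a degree-one prime of `K` of norm `ℓ` (so `ℓ ≡ 1 mod p`),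
`F = K(ζ_ℓ)` (any `F` with `[IsCyclotomicExtension {ℓ} K F]`), `τ` a generator of `Gal(F/K)`
with `τ ζ_ℓ = ζ_ℓ^s`, `ε` a unit of `𝓞 F` with `ε ≡ 1 - ζ_p mod (ζ_ℓ - 1)`,
`β ≠ 0` in `𝓞 F` with `τ β = ε * β` (Hilbert 90), `N = N_{F/K} β`.
-/

set_option autoImplicit false

open scoped NumberField nonZeroDivisors

namespace Fermat.Agent.H76

open Fermat.Agent.H13

/-- **C3-a** (field set-up and Hilbert 90): `[F : K] = ℓ - 1`, `Gal(F/K)` is cyclic with a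
generator `τ`, `τ ζ_ℓ = ζ_ℓ^s`, and there are `β ≠ 0`, `ε` in `𝓞 F` with `τ β = ε * β` and
`ε ≡ 1 - ζ_p` modulo `ζ_ℓ - 1`. -/
def ThaineFieldStatement : Prop :=
  ∀ (p ℓ : ℕ) [Fact p.Prime] [Fact ℓ.Prime] (_ : 5 ≤ p) (K : Type) [Field K] [NumberField K]
    [IsCyclotomicExtension {p} ℚ K] (F : Type) [Field F] [NumberField F] [Algebra K F]
    [IsCyclotomicExtension {ℓ} K F], ℓ ≠ p → ℓ % p = 1 →
    ∀ (ζ : 𝓞 K), IsPrimitiveRoot ζ p → ∀ (ζℓ : 𝓞 F), IsPrimitiveRoot ζℓ ℓ →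
    Module.finrank K F = ℓ - 1 ∧
    ∃ (τ : F ≃ₐ[K] F) (s : ℕ) (β ε : 𝓞 F), (∀ x, x ∈ Subgroup.zpowers τ) ∧
      galRestrict (𝓞 K) K F (𝓞 F) τ ζℓ = ζℓ ^ s ∧ β ≠ 0 ∧
      galRestrict (𝓞 K) K F (𝓞 F) τ β = ε * β ∧
      (ζℓ - 1) ∣ ε - (1 - algebraMap (𝓞 K) (𝓞 F) ζ)

/-- **C3-b1** (`F/K` is unramified outside `ℓ`). -/
def UnramifiedStatement : Prop :=
  ∀ (p ℓ : ℕ) [Fact p.Prime] [Fact ℓ.Prime] (_ : 5 ≤ p) (K : Type) [Field K] [NumberField K]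
    [IsCyclotomicExtension {p} ℚ K] (F : Type) [Field F] [NumberField F] [Algebra K F]
    [IsCyclotomicExtension {ℓ} K F], ℓ ≠ p →
    ∀ (Q : Ideal (𝓞 F)), Q.IsPrime → Q ≠ ⊥ → ((ℓ : ℕ) : 𝓞 F) ∉ Q →
      Q.ramificationIdx (𝓞 K) = 1

/-- **C3-b2** (`F/K` is totally ramified at the primes over `ℓ`, with uniformiser `ζ_ℓ - 1`,
and `Gal(F/K)` acts trivially on the residue field). -/
def TotallyRamifiedStatement : Prop :=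
  ∀ (p ℓ : ℕ) [Fact p.Prime] [Fact ℓ.Prime] (_ : 5 ≤ p) (K : Type) [Field K] [NumberField K]
    [IsCyclotomicExtension {p} ℚ K] (F : Type) [Field F] [NumberField F] [Algebra K F]
    [IsCyclotomicExtension {ℓ} K F], ℓ ≠ p → ℓ % p = 1 →
    ∀ (ζℓ : 𝓞 F), IsPrimitiveRoot ζℓ ℓ →
    ∀ (Q : Ideal (𝓞 F)), Q.IsPrime → ((ℓ : ℕ) : 𝓞 F) ∈ Q →
      Q.ramificationIdx (𝓞 K) = ℓ - 1 ∧ ζℓ - 1 ∈ Q ∧ ζℓ - 1 ∉ Q ^ 2 ∧
      ∀ (σ : F ≃ₐ[K] F) (x : 𝓞 F), galRestrict (𝓞 K) K F (𝓞 F) σ x - x ∈ Q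

/-- **C3-c** (local congruence, abstract Dedekind domain): if `τ` acts trivially on `R/Λ`,
multiplies the uniformiser `ϖ` by `c ≡ s mod Λ`, and `τ β = ε * β` with `v_Λ(β) = r`, then
`ε ≡ s^r mod Λ`. -/
def LocalCongruenceStatement : Prop :=
  ∀ (R : Type) [CommRing R] [IsDedekindDomain R] (Λ : Ideal R), Λ.IsPrime → Λ ≠ ⊥ →
    ∀ (τ : R ≃+* R), (∀ a : R, τ a - a ∈ Λ) →
    ∀ (ϖ c : R) (s : ℕ), ϖ ∈ Λ → ϖ ∉ Λ ^ 2 → τ ϖ = c * ϖ → c - (s : R) ∈ Λ →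
    ∀ (β ε : R), τ β = ε * β → ∀ r : ℕ, β ∈ Λ ^ r → β ∉ Λ ^ (r + 1) →
      ε - (s : R) ^ r ∈ Λ

/-- **C3-d** (valuations of the norm): if `τ` generates `Gal(F/K)` and `τ β = ε * β`, then for
every prime `Q` of `F` with `v_Q(β) = r` and `q = Q ∩ 𝓞 K`: `v_q(N β) = m` whenever
`e(Q|q) * m = [F:K] * r`. -/
def NormValuationStatement : Prop :=
  ∀ (K F : Type) [Field K] [NumberField K] [Field F] [NumberField F] [Algebra K F]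
    [IsGalois K F] (τ : F ≃ₐ[K] F), (∀ x, x ∈ Subgroup.zpowers τ) →
    ∀ (β ε : 𝓞 F), galRestrict (𝓞 K) K F (𝓞 F) τ β = ε * β →
    ∀ (Q : Ideal (𝓞 F)), Q.IsPrime → Q ≠ ⊥ → ∀ r : ℕ, β ∈ Q ^ r → β ∉ Q ^ (r + 1) →
    ∀ m : ℕ, Q.ramificationIdx (𝓞 K) * m = Module.finrank K F * r →
      Algebra.intNorm (𝓞 K) (𝓞 F) β ∈ (Q.under (𝓞 K)) ^ m ∧
      Algebra.intNorm (𝓞 K) (𝓞 F) β ∉ (Q.under (𝓞 K)) ^ (m + 1)

/-- **C3-e** (the primes of `K` over `ℓ`): `ℓ ≡ 1 mod p`, every prime of `K` containing `ℓ` is a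
Galois conjugate of `P`, and `σ ↦ σ P` is injective. -/
def PrimesOverStatement : Prop :=
  ∀ (p : ℕ) [Fact p.Prime] (_ : 5 ≤ p) (K : Type) [Field K] [NumberField K]
    [IsCyclotomicExtension {p} ℚ K] (P : (Ideal (𝓞 K))⁰), IsDegOnePrime p P →
    Ideal.absNorm (P : Ideal (𝓞 K)) % p = 1 ∧
    (∀ Q : Ideal (𝓞 K), Q.IsPrime → ((Ideal.absNorm (P : Ideal (𝓞 K)) : ℕ) : 𝓞 K) ∈ Q →
      ∃ σ : K ≃ₐ[ℚ] K, Q = Ideal.map (sigmaO K σ) (P : Ideal (𝓞 K))) ∧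
    Function.Injective (fun σ : K ≃ₐ[ℚ] K => Ideal.map (sigmaO K σ) (P : Ideal (𝓞 K)))

end Fermat.Agent.H76
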