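import Fermat.Agent.H76.ThaineInterfaces

/-!
# Glue for the F-side of C3 (Thaine's relation): the parts imply `H13.ThaineDatumStatement`
-/

set_option autoImplicit false

open scoped NumberField nonZeroDivisors

namespace Fermat.Agent.H76

open Fermat.Agent.H13

/-- In a Dedekind domain a nonzero element has a well-defined valuation at a prime. -/
theorem exists_mem_pow_not_mem_pow_succ {R : Type*} [CommRing R] [IsDedekindDomain R]
    (Q : Ideal R) (hQ : Q ≠ ⊤) {x : R} (hx : x ≠ 0) :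
    ∃ r : ℕ, x ∈ Q ^ r ∧ x ∉ Q ^ (r + 1) := by
  classical
  have h : ∃ n : ℕ, x ∉ Q ^ n := by
    by_contra hcon
    have hall : ∀ n : ℕ, x ∈ Q ^ n := fun n => by
      by_contra hn
      exact hcon ⟨n, hn⟩
    have : x ∈ (⨅ i : ℕ, Q ^ i) := by
      simp only [Ideal.mem_iInf]
      exact hall
    rw [Ideal.iInf_pow_eq_bot_of_isDomain Q hQ] at this
    exact hx (by simpa using this)
  have h0 : Nat.find h ≠ 0 := by
    intro h0
    have := Nat.find_spec h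
    rw [h0, pow_zero, Ideal.one_eq_top] at this
    exact this trivial
  obtain ⟨r, hr⟩ := Nat.exists_eq_succ_of_ne_zero h0
  refine ⟨r, ?_, ?_⟩
  · by_contra hcon
    have := Nat.find_min' h hcon
    omega
  · have := Nat.find_spec h
    rwa [hr] at this


/-- Over every nonzero prime of `𝓞 K` there is a nonzero prime of `𝓞 F`. -/
theorem exists_prime_over (K F : Type) [Field K] [NumberField K] [Field F] [NumberField F]
    [Algebra K F] (q : Ideal (𝓞 K)) (hq : q.IsPrime) (hq0 : q ≠ ⊥) :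
    ∃ Q : Ideal (𝓞 F), Q.IsPrime ∧ Q ≠ ⊥ ∧ Q.under (𝓞 K) = q := by
  obtain ⟨Q, -, hQp, hQ⟩ := Ideal.exists_ideal_over_prime_of_isIntegral q (⊥ : Ideal (𝓞 F))
    (by
      rw [Ideal.comap_bot_of_injective _ (FaithfulSMul.algebraMap_injective (𝓞 K) (𝓞 F))]
      exact bot_le)
  refine ⟨Q, hQp, ?_, hQ⟩
  rintro rfl
  rw [Ideal.comap_bot_of_injective _ (FaithfulSMul.algebraMap_injective (𝓞 K) (𝓞 F))] at hQ
  exact hq0 hQ.symm

theorem thaineDatum_of_parts (hF : ThaineFieldStatement) (hU : UnramifiedStatement)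
    (hT : TotallyRamifiedStatement) (hL : LocalCongruenceStatement)
    (hN : NormValuationStatement) (hP : PrimesOverStatement) : ThaineDatumStatement := by
  intro p _ hp5 K _ _ _ ζ hζ P hPdeg
  obtain ⟨hmod, hconj, hinj⟩ := hP p hp5 K P hPdeg
  obtain ⟨hPprime, hℓprime, hℓp⟩ := hPdeg
  have hPmem := Ideal.absNorm_mem (P : Ideal (𝓞 K))
  generalize hℓ : Ideal.absNorm (P : Ideal (𝓞 K)) = ℓ at hmod hconj hℓprime hℓp hPmem
  have : Fact ℓ.Prime := ⟨hℓprime⟩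
  let F := CyclotomicField ℓ K
  have hζℓ' := IsCyclotomicExtension.zeta_spec ℓ K F
  have hζℓ := hζℓ'.toInteger_isPrimitiveRoot
  generalize hζℓ'.toInteger = ζℓ at hζℓ
  obtain ⟨hfin, τ, s, β, ε, hτ, hτζ, hβ, hτβ, hε⟩ :=
    hF p ℓ hp5 K F hℓp hmod hζ.toInteger hζ.toInteger_isPrimitiveRoot ζℓ hζℓ
  have : IsGalois K F := IsCyclotomicExtension.isGalois {ℓ} K F
  have hN0 : Algebra.intNorm (𝓞 K) (𝓞 F) β ≠ 0 := Algebra.intNorm_ne_zero.mpr hβ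
  have hval : ∀ Q : Ideal (𝓞 F), Q.IsPrime → ∃ r, β ∈ Q ^ r ∧ β ∉ Q ^ (r + 1) :=
    fun Q hQ => exists_mem_pow_not_mem_pow_succ Q hQ.ne_top hβ
  have hpdvd : p ∣ ℓ - 1 := by
    have h1 : 1 ≤ ℓ := hℓprime.one_le
    have : (ℓ - 1) % p = 0 := by
      have h2 : ℓ = p * (ℓ / p) + 1 := by
        have := Nat.div_add_mod ℓ p
        omega
      rw [h2]
      simp
    exact Nat.dvd_of_mod_eq_zero this
  have hσP : ∀ σ : K ≃ₐ[ℚ] K, (Ideal.map (sigmaO K σ) (P : Ideal (𝓞 K))).IsPrime ∧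
      Ideal.map (sigmaO K σ) (P : Ideal (𝓞 K)) ≠ ⊥ ∧
      ((ℓ : ℕ) : 𝓞 K) ∈ Ideal.map (sigmaO K σ) (P : Ideal (𝓞 K)) := by
    intro σ
    refine ⟨Ideal.map_isPrime_of_equiv (sigmaO K σ), ?_, ?_⟩
    · intro h
      have hP0 : (P : Ideal (𝓞 K)) ≠ ⊥ := by
        have := mem_nonZeroDivisors_iff_ne_zero.mp P.2
        simpa using this
      exact hP0 ((Ideal.map_eq_bot_iff_of_injective (sigmaO K σ).injective).mp h)
    · have := Ideal.mem_map_of_mem (sigmaO K σ) hPmem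
      simpa using this
  have hdata : ∀ σ : K ≃ₐ[ℚ] K, ∃ r : ℕ,
      (Algebra.intNorm (𝓞 K) (𝓞 F) β ∈ (Ideal.map (sigmaO K σ) (P : Ideal (𝓞 K))) ^ r ∧
        Algebra.intNorm (𝓞 K) (𝓞 F) β ∉ (Ideal.map (sigmaO K σ) (P : Ideal (𝓞 K))) ^ (r + 1)) ∧
      (1 - hζ.toInteger) - (s : 𝓞 K) ^ r ∈ Ideal.map (sigmaO K σ) (P : Ideal (𝓞 K)) := by
    intro σ
    obtain ⟨hprime, hne, hmem⟩ := hσP σ
    obtain ⟨Q, hQp, hQne, hQu⟩ := exists_prime_over K F _ hprime hne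
    have hℓQ : ((ℓ : ℕ) : 𝓞 F) ∈ Q := by
      have h1 : ((ℓ : ℕ) : 𝓞 K) ∈ Q.under (𝓞 K) := hQu ▸ hmem
      have h2 : algebraMap (𝓞 K) (𝓞 F) ((ℓ : ℕ) : 𝓞 K) ∈ Q := h1
      simpa using h2
    obtain ⟨he, hϖ, hϖ2, htriv⟩ := hT p ℓ hp5 K F hℓp hmod ζℓ hζℓ Q hQp hℓQ
    obtain ⟨r, hr1, hr2⟩ := hval Q hQp
    refine ⟨r, ?_, ?_⟩
    · have := hN K F τ hτ β ε hτβ Q hQp hQne r hr1 hr2 r (by rw [he, hfin])
      rwa [hQu] at this
    · have hc1 : (galRestrict (𝓞 K) K F (𝓞 F) τ).toRingEquiv (ζℓ - 1) =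
          (∑ i ∈ Finset.range s, ζℓ ^ i) * (ζℓ - 1) := by
        have : (galRestrict (𝓞 K) K F (𝓞 F) τ) (ζℓ - 1) = ζℓ ^ s - 1 := by
          rw [map_sub, map_one, hτζ]
        rw [mul_comm, mul_geom_sum]
        exact this
      have hc2 : (∑ i ∈ Finset.range s, ζℓ ^ i) - (s : 𝓞 F) ∈ Q := by
        have : (∑ i ∈ Finset.range s, ζℓ ^ i) - (s : 𝓞 F) =
            ∑ i ∈ Finset.range s, (ζℓ ^ i - 1) := by
          simp [Finset.sum_sub_distrib]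
        rw [this]
        refine Ideal.sum_mem _ fun i _ => ?_
        obtain ⟨d, hd⟩ := sub_one_dvd_pow_sub_one ζℓ i  -- (ζℓ - 1) ∣ ζℓ^i - 1
        rw [hd]
        exact Ideal.mul_mem_right _ _ hϖ
      have hloc := hL (𝓞 F) Q hQp hQne (galRestrict (𝓞 K) K F (𝓞 F) τ).toRingEquiv
        (fun a => htriv τ a) (ζℓ - 1) (∑ i ∈ Finset.range s, ζℓ ^ i) s hϖ hϖ2 hc1 hc2 β ε hτβ
        r hr1 hr2
      have hε' : ε - (1 - algebraMap (𝓞 K) (𝓞 F) hζ.toInteger) ∈ Q := by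
        obtain ⟨d, hd⟩ := hε
        rw [hd]
        exact Ideal.mul_mem_right _ _ hϖ
      have h3 : algebraMap (𝓞 K) (𝓞 F) ((1 - hζ.toInteger) - (s : 𝓞 K) ^ r) ∈ Q := by
        have : algebraMap (𝓞 K) (𝓞 F) ((1 - hζ.toInteger) - (s : 𝓞 K) ^ r) =
            (ε - (s : 𝓞 F) ^ r) - (ε - (1 - algebraMap (𝓞 K) (𝓞 F) hζ.toInteger)) := by
          simp
        rw [this]
        exact Ideal.sub_mem _ hloc hε'
      have h4 : (1 - hζ.toInteger) - (s : 𝓞 K) ^ r ∈ Q.under (𝓞 K) := h3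
      rwa [hQu] at h4
  choose r hr using hdata
  refine ⟨Algebra.intNorm (𝓞 K) (𝓞 F) β, (s : ℤ), r, hN0, ?_, fun σ => (hr σ).1, ?_⟩
  · intro Q hQp hQne hQσ
    have hℓQ : ((ℓ : ℕ) : 𝓞 K) ∉ Q := fun h => by
      obtain ⟨σ, hσ⟩ := hconj Q hQp h
      exact hQσ σ hσ
    obtain ⟨Q', hQ'p, hQ'ne, hQ'u⟩ := exists_prime_over K F Q hQp hQne
    have hℓQ' : ((ℓ : ℕ) : 𝓞 F) ∉ Q' := by
      intro h
      apply hℓQ
      rw [← hQ'u]
      show algebraMap (𝓞 K) (𝓞 F) ((ℓ : ℕ) : 𝓞 K) ∈ Q'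
      simpa using h
    have he := hU p ℓ hp5 K F hℓp Q' hQ'p hQ'ne hℓQ'
    obtain ⟨r', hr1, hr2⟩ := hval Q' hQ'p
    have := hN K F τ hτ β ε hτβ Q' hQ'p hQ'ne r' hr1 hr2 ((ℓ - 1) * r') (by rw [he, hfin, one_mul])
    rw [hQ'u] at this
    obtain ⟨k, hk⟩ := hpdvd
    refine ⟨k * r', ?_⟩
    rw [← mul_assoc, ← hk]
    exact this
  · intro σ
    have := (hr σ).2
    simpa using this

end Fermat.Agent.H76
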