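/-
P-ES / ES-A/CHAR (row 264, helper76): the identity-theorem part of the Kummer character
construction, Mathlib only.

* `esaChar_exists_root_of_unity` : two holomorphic functions on `ℍ` with the same `m`-th power
  differ by a constant `m`-th root of unity;
* `esaChar_exists_character` : if `g ≠ 0` is holomorphic and `g ^ m` is `Γ₀(N)`-invariant then
  `g` transforms by a character of exponent `m`;
* `esaChar_character_unique` : the character by which `g ≠ 0` transforms is unique.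
-/
import Mathlib.Analysis.Complex.UpperHalfPlane.Manifold
import Mathlib.Geometry.Manifold.MFDeriv.SpecificFunctions
import Mathlib.NumberTheory.ModularForms.CongruenceSubgroups
import Mathlib.RingTheory.RootsOfUnity.Complex
import Mathlib.RingTheory.Polynomial.Cyclotomic.Eval

set_option autoImplicit false

noncomputable section

open UpperHalfPlane
open scoped MatrixGroups Manifold Topology

namespace Fermat.Agent.H76

/-- Translates of holomorphic functions on `ℍ` by elements of `SL(2, ℤ)` are holomorphic. -/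
theorem esaChar_mdiff_comp_smul {g : ℍ → ℂ} (hg : MDiff g) (γ : SL(2, ℤ)) :
    MDiff (fun z : ℍ => g (γ • z)) := by
  have h : MDiff (fun τ : ℍ => (Matrix.SpecialLinearGroup.mapGL ℝ γ : GL (Fin 2) ℝ) • τ) :=
    UpperHalfPlane.mdifferentiable_smul (by simp)
  exact hg.comp h

/-- Two holomorphic functions on `ℍ` with the same `m`-th power differ by a constant `m`-th root
of unity. -/
theorem esaChar_exists_root_of_unity {m : ℕ} (hm : 0 < m) {g h : ℍ → ℂ} (hg : MDiff g)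
    (hh : MDiff h) (e : ∀ z, h z ^ m = g z ^ m) :
    ∃ ζ : ℂ, ζ ^ m = 1 ∧ ∀ z, h z = ζ * g z := by
  classical
  have hprim : IsPrimitiveRoot (Complex.exp (2 * Real.pi * Complex.I / m)) m :=
    Complex.isPrimitiveRoot_exp m hm.ne'
  have key : ∏ ζ ∈ Polynomial.nthRootsFinset m (1 : ℂ), (h - fun z => ζ * g z) = 0 := by
    funext z
    rw [Finset.prod_apply]
    simp only [Pi.sub_apply, Pi.zero_apply]
    rw [← hprim.pow_sub_pow_eq_prod_sub_mul (h z) (g z) hm, e z, sub_self]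
  rw [UpperHalfPlane.prod_eq_zero_iff] at key
  · obtain ⟨ζ, hζ, h0⟩ := key
    refine ⟨ζ, (Polynomial.mem_nthRootsFinset hm 1).mp hζ, fun z => ?_⟩
    have := congrFun h0 z
    simpa [sub_eq_zero] using this
  · intro ζ _
    exact hh.sub (mdifferentiable_const.mul hg)

/-- If `a g = b g` with `g ≠ 0` then `a = b`. -/
theorem esaChar_const_unique {g : ℍ → ℂ} (hg0 : g ≠ 0) {a b : ℂ}
    (h : ∀ z, a * g z = b * g z) : a = b := by
  obtain ⟨z₀, hz₀⟩ : ∃ z₀, g z₀ ≠ 0 := by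
    by_contra hcon
    exact hg0 (funext fun z => not_not.mp fun hz => hcon ⟨z, hz⟩)
  exact mul_right_cancel₀ hz₀ (h z₀)

/-- If `g ≠ 0` is holomorphic on `ℍ` and `g ^ m` is `Γ₀(N)`-invariant then `g` transforms by a
character with values in the `m`-th roots of unity. -/
theorem esaChar_exists_character (N : ℕ) {m : ℕ} (hm : 0 < m) {g : ℍ → ℂ} (hg : MDiff g)
    (hg0 : g ≠ 0)
    (hinv : ∀ (γ : ↥(CongruenceSubgroup.Gamma0 N)) (z : ℍ),
      g ((γ : SL(2, ℤ)) • z) ^ m = g z ^ m) :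
    ∃ χ : ↥(CongruenceSubgroup.Gamma0 N) →* ℂˣ, χ ^ m = 1 ∧
      ∀ (γ : ↥(CongruenceSubgroup.Gamma0 N)) (z : ℍ),
        g ((γ : SL(2, ℤ)) • z) = ((χ γ : ℂˣ) : ℂ) * g z := by
  -- for every `γ` there is a root of unity `ζ` with `g ∘ γ = ζ g`
  have hex : ∀ γ : ↥(CongruenceSubgroup.Gamma0 N), ∃ ζ : ℂ, ζ ^ m = 1 ∧
      ∀ z : ℍ, g ((γ : SL(2, ℤ)) • z) = ζ * g z := fun γ =>
    esaChar_exists_root_of_unity hm hg (esaChar_mdiff_comp_smul hg (γ : SL(2, ℤ)))
      (fun z => hinv γ z)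
  choose c hc1 hc2 using hex
  have hone : c 1 = 1 := by
    refine esaChar_const_unique hg0 (fun z => ?_)
    rw [← hc2 1 z, one_mul]
    simp
  have hmul : ∀ γ γ' : ↥(CongruenceSubgroup.Gamma0 N), c (γ * γ') = c γ * c γ' := by
    intro γ γ'
    refine esaChar_const_unique hg0 (fun z => ?_)
    rw [← hc2 (γ * γ') z, Subgroup.coe_mul, mul_smul, hc2 γ, hc2 γ', mul_assoc]
  let χ₀ : ↥(CongruenceSubgroup.Gamma0 N) →* ℂ :=
    { toFun := c, map_one' := hone, map_mul' := hmul }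
  refine ⟨χ₀.toHomUnits, ?_, fun γ z => ?_⟩
  · ext γ
    rw [MonoidHom.pow_apply, Units.val_pow_eq_pow_val, MonoidHom.coe_toHomUnits]
    exact (hc1 γ).trans (by simp)
  · rw [MonoidHom.coe_toHomUnits]
    exact hc2 γ z

/-- The character by which a nonzero function transforms is unique. -/
theorem esaChar_character_unique (N : ℕ) {g : ℍ → ℂ} (hg0 : g ≠ 0)
    {χ χ' : ↥(CongruenceSubgroup.Gamma0 N) →* ℂˣ}
    (h : ∀ (γ : ↥(CongruenceSubgroup.Gamma0 N)) (z : ℍ),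
      g ((γ : SL(2, ℤ)) • z) = ((χ γ : ℂˣ) : ℂ) * g z)
    (h' : ∀ (γ : ↥(CongruenceSubgroup.Gamma0 N)) (z : ℍ),
      g ((γ : SL(2, ℤ)) • z) = ((χ' γ : ℂˣ) : ℂ) * g z) : χ = χ' := by
  ext γ
  exact esaChar_const_unique hg0 (fun z => by rw [← h γ z, h' γ z])

/-- If `g' = ζ g` with `ζ ≠ 0` and `g ≠ 0`, and `g`, `g'` transform by `χ`, `χ'`, then
`χ = χ'`. -/
theorem esaChar_character_unique_of_const (N : ℕ) {g g' : ℍ → ℂ} (hg0 : g ≠ 0) {ζ : ℂ}
    (hζ0 : ζ ≠ 0) (hζ : ∀ z, g' z = ζ * g z)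
    {χ χ' : ↥(CongruenceSubgroup.Gamma0 N) →* ℂˣ}
    (h : ∀ (γ : ↥(CongruenceSubgroup.Gamma0 N)) (z : ℍ),
      g ((γ : SL(2, ℤ)) • z) = ((χ γ : ℂˣ) : ℂ) * g z)
    (h' : ∀ (γ : ↥(CongruenceSubgroup.Gamma0 N)) (z : ℍ),
      g' ((γ : SL(2, ℤ)) • z) = ((χ' γ : ℂˣ) : ℂ) * g' z) : χ = χ' := by
  refine esaChar_character_unique N hg0 h (fun γ z => ?_)
  have h1 := h' γ z
  rw [hζ, hζ] at h1
  have h2 : ζ * g ((γ : SL(2, ℤ)) • z) = ζ * (((χ' γ : ℂˣ) : ℂ) * g z) := by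
    rw [h1]; ring
  exact mul_left_cancel₀ hζ0 h2

end Fermat.Agent.H76

end
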