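/-
P-ES / ES-A/CHAR (row 264, helper76): `CharOfRootStatement N` and `KummerUniqueStatement N`
of `Fermat.Agent.H94.EsA.Interfaces`, for every `N`.
-/
import Fermat.Agent.H94.EsA.Interfaces
import Fermat.Agent.H76.EsACharCore

set_option autoImplicit false

noncomputable section

open UpperHalfPlane
open scoped MatrixGroups Manifold Topology

namespace Fermat.Agent.H76

/-- **A-CHAR**: if `g ^ m` is `Γ₀(N)`-invariant then `g` transforms by a character with values in
the `m`-th roots of unity. -/
theorem charOfRoot (N : ℕ) : Fermat.Agent.H94.EsA.CharOfRootStatement N :=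
  fun _ hm _ hg hg0 hinv => esaChar_exists_character N hm hg hg0 hinv

/-- **A-UNIQ**: the Kummer character is unique. -/
theorem kummerUnique (N : ℕ) : Fermat.Agent.H94.EsA.KummerUniqueStatement N := by
  rintro m hm f hf χ χ' ⟨g, hg, hgf, hgχ⟩ ⟨g', hg', hgf', hgχ'⟩
  have hpow : g' ^ m = g ^ m := hgf'.unique_left hgf
  have hg0 : g ≠ 0 := by
    rintro rfl
    rw [zero_pow hm.ne'] at hgf
    exact hf (hgf.unique_right Fermat.Agent.H44.laurentRel_zero)
  obtain ⟨ζ, hζ1, hζ⟩ := esaChar_exists_root_of_unity hm hg hg' (fun z => congrFun hpow z)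
  have hζ0 : ζ ≠ 0 := by
    rintro rfl
    rw [zero_pow hm.ne'] at hζ1
    exact zero_ne_one hζ1
  exact esaChar_character_unique_of_const N hg0 hζ0 hζ hgχ hgχ'

end Fermat.Agent.H76

end
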