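/-
P-ES / ES-A/CHAR (row 264, helper76): the same results for the interfaces of helper23:
`Fermat.Agent.H23.EsA.CharOfRootStatement N` and `Fermat.Agent.H23.EsA.PowEqStatement`.
-/
import Fermat.Agent.H23.EsA.Parts
import Fermat.Agent.H23.EsA.Lemmas
import Fermat.Agent.H76.EsACharCore

set_option autoImplicit false

noncomputable section

open UpperHalfPlane
open scoped MatrixGroups Manifold Topology

namespace Fermat.Agent.H76

/-- **[POW-EQ]** two holomorphic functions on `ℍ` with the same `m`-th power differ by an
`m`-th root of unity. -/
theorem powEq_h23 : Fermat.Agent.H23.EsA.PowEqStatement :=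
  fun _ hm _ _ h1 h2 e => esaChar_exists_root_of_unity hm h2 h1 (fun z => congrFun e z)

/-- **[CHAR]** a nonzero holomorphic function whose `m`-th power is `Γ₀(N)`-invariant transforms
by a character of exponent `m`; the character is unique. -/
theorem charOfRoot_h23 (N : ℕ) : Fermat.Agent.H23.EsA.CharOfRootStatement N := by
  intro m hm G hG hG0
  refine ⟨fun hinv => ?_, fun χ χ' h h' => esaChar_character_unique N hG0 h h'⟩
  exact esaChar_exists_character N hm hG hG0 (fun γ z => hinv (γ : SL(2, ℤ)) γ.2 z)

end Fermat.Agent.H76

end
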