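import Mathlib

/-!
# `ℤ[ζ₁₁]` is a principal ideal domain

helper76: sub-task B11 of the S10/S11 "FLT for small regular exponents" effort.
-/

set_option autoImplicit false

namespace Fermat.Agent.H76

open NumberField Polynomial InfinitePlace Nat Real IsCyclotomicExtension.Rat

variable (K : Type) [Field K] [NumberField K]

/-- The Minkowski bound of `ℚ(ζ₁₁)` is `< 59`. -/
theorem minkowski_eleven_lt [IsCyclotomicExtension {11} ℚ K] :
    (4 / π) ^ nrComplexPlaces K *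
      (((Module.finrank ℚ K)! : ℝ) / (Module.finrank ℚ K : ℝ) ^ Module.finrank ℚ K *
        √|(NumberField.discr K : ℝ)|) < 59 := by
  have : Fact (Nat.Prime 11) := ⟨by norm_num⟩
  rw [discr_prime 11 K, IsCyclotomicExtension.finrank (n := 11) K
    (cyclotomic.irreducible_rat (by norm_num)), nrComplexPlaces_eq_totient_div_two 11,
    totient_prime (by norm_num : Nat.Prime 11)]
  have h10 : (10 ! : ℝ) = 3628800 := by
    have : (10 ! : ℕ) = 3628800 := by decide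
    exact_mod_cast this
  have hdisc : |((((-1 : ℤ)) ^ ((11 - 1) / 2) * ((11 : ℕ) : ℤ) ^ (11 - 2) : ℤ) : ℝ)| = 11 ^ 9 := by
    norm_num
  have hsqrt : √((11 : ℝ) ^ 9) < 48558.91 := by
    rw [Real.sqrt_lt' (by norm_num)]
    norm_num
  have hpi : (4 / π) < 4 / 3.141592 := by
    apply div_lt_div_of_pos_left (by norm_num) (by norm_num) pi_gt_d6
  have hpi0 : (0 : ℝ) < 4 / π := by positivity
  have hpow : (4 / π) ^ 5 < (4 / 3.141592 : ℝ) ^ 5 := by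
    gcongr
  simp only [Nat.add_one_sub_one, Nat.reduceDiv, Nat.reduceSub, Nat.cast_ofNat] at *
  rw [hdisc, h10]
  calc (4 / π) ^ 5 * (3628800 / (10 : ℝ) ^ 10 * √((11 : ℝ) ^ 9))
      < (4 / 3.141592 : ℝ) ^ 5 * (3628800 / (10 : ℝ) ^ 10 * 48558.91) := by
        apply mul_lt_mul hpow (by gcongr) (by positivity) (by positivity)
    _ < 59 := by norm_num



omit [Field K] [NumberField K] in
theorem prod_conj_eq_23 {R : Type*} [CommRing R] (z : R)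
    (h : 1 + z + z ^ 2 + z ^ 3 + z ^ 4 + z ^ 5 + z ^ 6 + z ^ 7 + z ^ 8 + z ^ 9 + z ^ 10 = 0) :
    (1 + z ^ 1 + z ^ 3) * (1 + z ^ 2 + z ^ 6) * (1 + z ^ 3 + z ^ 9) * (1 + z ^ 4 + z ^ 12) * (1 + z ^ 5 + z ^ 15) * (1 + z ^ 6 + z ^ 18) * (1 + z ^ 7 + z ^ 21) * (1 + z ^ 8 + z ^ 24) * (1 + z ^ 9 + z ^ 27) * (1 + z ^ 10 + z ^ 30) = 23 := by
  linear_combination (-22 + 23 * z + 2 * z ^ 3 - z ^ 4 + 2 * z ^ 5 + 2 * z ^ 6 + z ^ 7 + z ^ 8 + 5 * z ^ 9 + 3 * z ^ 10 - 21 * z ^ 11 + 30 * z ^ 12 + 2 * z ^ 13 + 8 * z ^ 14 + 8 * z ^ 15 + 7 * z ^ 16 + 6 * z ^ 17 + 16 * z ^ 18 + 4 * z ^ 19 + 16 * z ^ 20 + 18 * z ^ 21 - 13 * z ^ 22 + 38 * z ^ 23 + 24 * z ^ 24 + 15 * z ^ 25 + 17 * z ^ 26 + 34 * z ^ 27 + 18 * z ^ 28 + 25 * z ^ 29 + 33 * z ^ 30 + 30 * z ^ 31 + 23 * z ^ 32 + 26 * z ^ 33 + 43 * z ^ 34 + 44 * z ^ 35 + 52 * z ^ 36 + 34 * z ^ 37 + 38 * z ^ 38 + 66 * z ^ 39 + 33 * z ^ 40 + 45 * z ^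 41 + 75 * z ^ 42 + 36 * z ^ 43 + 39 * z ^ 44 + 108 * z ^ 45 + 39 * z ^ 46 + 62 * z ^ 47 + 86 * z ^ 48 + 46 * z ^ 49 + 69 * z ^ 50 + 91 * z ^ 51 + 57 * z ^ 52 + 65 * z ^ 53 + 109 * z ^ 54 + 43 * z ^ 55 + 85 * z ^ 56 + 102 * z ^ 57 + 69 * z ^ 58 + 68 * z ^ 59 + 108 * z ^ 60 + 64 * z ^ 61 + 78 * z ^ 62 + 112 * z ^ 63 + 59 * z ^ 64 + 81 * z ^ 65 + 124 * z ^ 66 + 47 * z ^ 67 + 90 * z ^ 68 + 112 * z ^ 69 + 56 * z ^ 70 + 69 * z ^ 71 + 135 * z ^ 72 + 43 * z ^ 73 + 82 * z ^ 74 + 105 * z ^ 75 + 57 * z ^ 76 + 74 * z ^ 77 + 109 * z ^ 78 + 50 * z ^ 79 + 72 * z ^ 80 + 94 * z ^ 81 + 43 * z ^ 82 + 76 * z ^ 83 + 98 * z ^ 84 + 28 * z ^ 85 + 70 * z ^ 86 + 89 * z ^ 87 + 33 * z ^ 88 + 63 * z ^ 89 + 81 * z ^ 90 + 30 * z ^ 91 + 51 * z ^ 92 + 81 * z ^ 93 + 20 * z ^ 94 + 54 * z ^ 95 + 60 * z ^ 96 + 23 * z ^ 97 + 40 * z ^ 98 + 64 * z ^ 99 + 12 * z ^ 100 + 48 * z ^ 101 + 42 * z ^ 102 + 19 * z ^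 103 + 28 * z ^ 104 + 53 * z ^ 105 - z ^ 106 + 42 * z ^ 107 + 25 * z ^ 108 + 17 * z ^ 109 + 19 * z ^ 110 + 40 * z ^ 111 - 6 * z ^ 112 + 30 * z ^ 113 + 19 * z ^ 114 + 10 * z ^ 115 + 9 * z ^ 116 + 31 * z ^ 117 - 9 * z ^ 118 + 22 * z ^ 119 + 11 * z ^ 120 + 10 * z ^ 121 + 4 * z ^ 122 + 21 * z ^ 123 - 10 * z ^ 124 + 19 * z ^ 125 + 2 * z ^ 126 + 5 * z ^ 127 + 3 * z ^ 128 + 12 * z ^ 129 - 7 * z ^ 130 + 13 * z ^ 131 + z ^ 132 + 3 * z ^ 133 + 9 * z ^ 135 - 6 * z ^ 136 + 7 * z ^ 137 + 2 * z ^ 139 - z ^ 140 + 5 * z ^ 141 - 3 * z ^ 142 + 4 * z ^ 143 + 2 * z ^ 147 - 2 * z ^ 148 + 3 * z ^ 149 - z ^ 150 + z ^ 153 - z ^ 154 + z ^ 155) * h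


theorem units_eleven_map_val :
    (Finset.univ : Finset (ZMod 11)ˣ).val.map (fun u : (ZMod 11)ˣ => (u : ZMod 11).val) =
      ({1, 2, 3, 4, 5, 6, 7, 8, 9, 10} : Multiset ℕ) := by
  decide

theorem prod_units_eleven {M : Type*} [CommMonoid M] (F : ℕ → M) :
    ∏ u : (ZMod 11)ˣ, F (u : ZMod 11).val =
      F 1 * F 2 * F 3 * F 4 * F 5 * F 6 * F 7 * F 8 * F 9 * F 10 := by
  have h : ∏ u : (ZMod 11)ˣ, F (u : ZMod 11).val =
      (((Finset.univ : Finset (ZMod 11)ˣ).val.map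
        (fun u : (ZMod 11)ˣ => (u : ZMod 11).val)).map F).prod := by
    rw [Multiset.map_map]; rfl
  rw [h, units_eleven_map_val]
  simp [mul_assoc]

/-- The norm of `1 + ζ + ζ³` in `ℚ(ζ₁₁)` is `23`. -/
theorem norm_one_add_zeta_add_zeta_cube [IsCyclotomicExtension {11} ℚ K] {ζ : K}
    (hζ : IsPrimitiveRoot ζ 11) :
    Algebra.norm ℚ (1 + ζ + ζ ^ 3) = 23 := by
  have : IsGalois ℚ K := IsCyclotomicExtension.isGalois {11} ℚ K
  apply (algebraMap ℚ K).injective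
  rw [Algebra.norm_eq_prod_automorphisms]
  have hσ : ∀ σ : K ≃ₐ[ℚ] K, σ (1 + ζ + ζ ^ 3) =
      (fun a : ℕ => 1 + ζ ^ a + ζ ^ (3 * a)) ((galEquivZMod 11 K σ : (ZMod 11)ˣ) : ZMod 11).val := by
    intro σ
    have := galEquivZMod_apply_of_pow_eq 11 K σ hζ.pow_eq_one
    simp only [map_add, map_one, map_pow, this]
    ring
  have hprod : ∏ σ : K ≃ₐ[ℚ] K, σ (1 + ζ + ζ ^ 3) =
      ∏ u : (ZMod 11)ˣ, (fun a : ℕ => 1 + ζ ^ a + ζ ^ (3 * a)) (u : ZMod 11).val :=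
    Fintype.prod_equiv (galEquivZMod 11 K).toEquiv _ _ (fun σ => hσ σ)
  rw [hprod]
  refine (Eq.trans ?_ (prod_units_eleven (fun a : ℕ => 1 + ζ ^ a + ζ ^ (3 * a)))).trans ?_
  · exact Finset.prod_congr (Finset.ext fun _ => by simp) (fun _ _ => rfl)
  have hsum : 1 + ζ + ζ ^ 2 + ζ ^ 3 + ζ ^ 4 + ζ ^ 5 + ζ ^ 6 + ζ ^ 7 + ζ ^ 8 + ζ ^ 9 + ζ ^ 10 = 0 := by
    have := hζ.geom_sum_eq_zero (by norm_num)
    simpa [Finset.sum_range_succ] using this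
  have := prod_conj_eq_23 ζ hsum
  simpa using this

theorem orderOf_2_zmod_eleven : orderOf (((2 : ℕ) : ZMod 11)) = 10 := by
  rw [orderOf_eq_iff (by norm_num)]
  decide

theorem orderOf_3_zmod_eleven : orderOf (((3 : ℕ) : ZMod 11)) = 5 := by
  rw [orderOf_eq_iff (by norm_num)]
  decide

theorem orderOf_5_zmod_eleven : orderOf (((5 : ℕ) : ZMod 11)) = 5 := by
  rw [orderOf_eq_iff (by norm_num)]
  decide

theorem orderOf_7_zmod_eleven : orderOf (((7 : ℕ) : ZMod 11)) = 10 := by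
  rw [orderOf_eq_iff (by norm_num)]
  decide

theorem orderOf_13_zmod_eleven : orderOf (((13 : ℕ) : ZMod 11)) = 10 := by
  rw [orderOf_eq_iff (by norm_num)]
  decide

theorem orderOf_17_zmod_eleven : orderOf (((17 : ℕ) : ZMod 11)) = 10 := by
  rw [orderOf_eq_iff (by norm_num)]
  decide

theorem orderOf_19_zmod_eleven : orderOf (((19 : ℕ) : ZMod 11)) = 10 := by
  rw [orderOf_eq_iff (by norm_num)]
  decide

theorem orderOf_29_zmod_eleven : orderOf (((29 : ℕ) : ZMod 11)) = 10 := by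
  rw [orderOf_eq_iff (by norm_num)]
  decide

theorem orderOf_31_zmod_eleven : orderOf (((31 : ℕ) : ZMod 11)) = 5 := by
  rw [orderOf_eq_iff (by norm_num)]
  decide

theorem orderOf_37_zmod_eleven : orderOf (((37 : ℕ) : ZMod 11)) = 5 := by
  rw [orderOf_eq_iff (by norm_num)]
  decide

theorem orderOf_41_zmod_eleven : orderOf (((41 : ℕ) : ZMod 11)) = 10 := by
  rw [orderOf_eq_iff (by norm_num)]
  decide

theorem orderOf_43_zmod_eleven : orderOf (((43 : ℕ) : ZMod 11)) = 2 := by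
  rw [orderOf_eq_iff (by norm_num)]
  decide

theorem orderOf_47_zmod_eleven : orderOf (((47 : ℕ) : ZMod 11)) = 5 := by
  rw [orderOf_eq_iff (by norm_num)]
  decide

theorem orderOf_53_zmod_eleven : orderOf (((53 : ℕ) : ZMod 11)) = 5 := by
  rw [orderOf_eq_iff (by norm_num)]
  decide


/-- The prime `span {1 + ζ + ζ³}` above `23`. -/
theorem exists_principal_over_23 [IsCyclotomicExtension {11} ℚ K] :
    ∃ P ∈ (Ideal.span {((23 : ℕ) : ℤ)}).primesOver (𝓞 K), Submodule.IsPrincipal P := by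
  have hζ := IsCyclotomicExtension.zeta_spec 11 ℚ K
  set z : 𝓞 K := hζ.toInteger with hz
  have hnorm : Algebra.norm ℤ (1 + z + z ^ 3) = 23 := by
    have h1 := Algebra.coe_norm_int (1 + z + z ^ 3)
    have h2 := norm_one_add_zeta_add_zeta_cube K hζ
    have h3 : ((1 + z + z ^ 3 : 𝓞 K) : K) = 1 + IsCyclotomicExtension.zeta 11 ℚ K +
        IsCyclotomicExtension.zeta 11 ℚ K ^ 3 := by
      have hc : (algebraMap (𝓞 K) K) hζ.toInteger = IsCyclotomicExtension.zeta 11 ℚ K := rfl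
      simp [hz, hc]
    rw [h3, h2] at h1
    exact_mod_cast h1
  have habs : Ideal.absNorm (Ideal.span {1 + z + z ^ 3}) = 23 := by
    rw [Ideal.absNorm_span_singleton, hnorm]; rfl
  have hprime : (Ideal.span {1 + z + z ^ 3} : Ideal (𝓞 K)).IsPrime := by
    apply Ideal.isPrime_of_irreducible_absNorm
    rw [habs]
    exact (by norm_num : Nat.Prime 23).prime.irreducible
  refine ⟨Ideal.span {1 + z + z ^ 3}, ⟨hprime, ?_⟩, ⟨_, rfl⟩⟩
  have hmem : ((23 : ℕ) : 𝓞 K) ∈ Ideal.span {1 + z + z ^ 3} := by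
    have := Ideal.absNorm_mem (Ideal.span {1 + z + z ^ 3} : Ideal (𝓞 K))
    rwa [habs] at this
  constructor
  have hmax : (Ideal.span {((23 : ℕ) : ℤ)}).IsMaximal := by
    have : Prime ((23 : ℕ) : ℤ) := Nat.prime_iff_prime_int.mp (by norm_num)
    exact (Ideal.span_singleton_prime this.ne_zero).mpr this |>.isMaximal
      (by simp)
  refine hmax.eq_of_le ?_ ?_
  · have := hprime.ne_top
    intro h
    apply this
    rw [Ideal.eq_top_iff_one]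
    have h1 : (1 : ℤ) ∈ Ideal.under ℤ (Ideal.span {1 + z + z ^ 3} : Ideal (𝓞 K)) := by
      rw [h]; trivial
    simp only [Ideal.under_def, Ideal.mem_comap, map_one] at h1
    exact h1
  · rw [Ideal.span_singleton_le_iff_mem, Ideal.mem_comap]
    simpa using hmem

/-- `ℤ[ζ₁₁]` is a principal ideal domain. -/
theorem pid_eleven [IsCyclotomicExtension {11} ℚ K] : IsPrincipalIdealRing (𝓞 K) := by
  have : IsGalois ℚ K := IsCyclotomicExtension.isGalois {11} ℚ K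
  have hM := minkowski_eleven_lt K
  have hfloor : ⌊(4 / π) ^ nrComplexPlaces K *
      (((Module.finrank ℚ K)! : ℝ) / (Module.finrank ℚ K : ℝ) ^ Module.finrank ℚ K *
        √|(NumberField.discr K : ℝ)|)⌋₊ ≤ 58 := by
    have h59 : ⌊(4 / π) ^ nrComplexPlaces K *
      (((Module.finrank ℚ K)! : ℝ) / (Module.finrank ℚ K : ℝ) ^ Module.finrank ℚ K *
        √|(NumberField.discr K : ℝ)|)⌋₊ < 59 := (Nat.floor_lt (by positivity)).mpr (by exact_mod_cast hM)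
    omega
  apply RingOfIntegers.isPrincipalIdealRing_of_isPrincipal_of_lt_or_isPrincipal_of_mem_primesOver_of_mem_Icc
  intro p hp hprime
  have hp58 : p ≤ 58 := (Finset.mem_Icc.mp hp).2.trans hfloor
  have hp1 : 1 ≤ p := (Finset.mem_Icc.mp hp).1
  by_cases h11 : p = 11
  · subst h11
    have : Fact (Nat.Prime 11) := ⟨hprime⟩
    have hζ := IsCyclotomicExtension.zeta_spec 11 ℚ K
    exact ⟨Ideal.span {hζ.toInteger - 1},
      ⟨isPrime_span_zeta_sub_one 11 0 (K := K) (by simp),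
        liesOver_span_zeta_sub_one 11 0 (K := K) (by simp)⟩, Or.inr ⟨_, rfl⟩⟩
  by_cases h23 : p = 23
  · subst h23
    obtain ⟨P, hP, hPP⟩ := exists_principal_over_23 K
    exact ⟨P, hP, Or.inr hPP⟩
  have : Fact p.Prime := ⟨hprime⟩
  have hpZ : Prime (p : ℤ) := Nat.prime_iff_prime_int.mp hprime
  have : (Ideal.span {(p : ℤ)}).IsPrime := (Ideal.span_singleton_prime hpZ.ne_zero).mpr hpZ
  obtain ⟨⟨P, hP1, hP2⟩⟩ := Ideal.nonempty_primesOver (S := 𝓞 K) (Ideal.span {(p : ℤ)})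
  refine ⟨P, ⟨hP1, hP2⟩, Or.inl (lt_of_le_of_lt hfloor ?_)⟩
  have hnd : ¬ p ∣ 11 := by
    intro h
    exact h11 ((Nat.prime_dvd_prime_iff_eq hprime (by norm_num)).mp h)
  rw [inertiaDeg_eq_of_not_dvd p K P hnd]
  have hlist : p = 2 ∨ p = 3 ∨ p = 5 ∨ p = 7 ∨ p = 13 ∨ p = 17 ∨ p = 19 ∨ p = 29 ∨ p = 31 ∨ p = 37 ∨ p = 41 ∨ p = 43 ∨ p = 47 ∨ p = 53 := by
    interval_cases p <;> first | omega | (exfalso; revert hprime; norm_num)
  rcases hlist with rfl | rfl | rfl | rfl | rfl | rfl | rfl | rfl | rfl | rfl | rfl | rfl | rfl | rfl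
  · rw [orderOf_2_zmod_eleven]; norm_num
  · rw [orderOf_3_zmod_eleven]; norm_num
  · rw [orderOf_5_zmod_eleven]; norm_num
  · rw [orderOf_7_zmod_eleven]; norm_num
  · rw [orderOf_13_zmod_eleven]; norm_num
  · rw [orderOf_17_zmod_eleven]; norm_num
  · rw [orderOf_19_zmod_eleven]; norm_num
  · rw [orderOf_29_zmod_eleven]; norm_num
  · rw [orderOf_31_zmod_eleven]; norm_num
  · rw [orderOf_37_zmod_eleven]; norm_num
  · rw [orderOf_41_zmod_eleven]; norm_num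
  · rw [orderOf_43_zmod_eleven]; norm_num
  · rw [orderOf_47_zmod_eleven]; norm_num
  · rw [orderOf_53_zmod_eleven]; norm_num

end Fermat.Agent.H76

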