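import Fermat.Agent.H76.ThaineGlue
import Fermat.Agent.H39.ThaineField
import Fermat.Agent.H16.S14ThaineRam
import Fermat.Agent.H88.ThaineRam
import Fermat.Agent.H47.ThaineC3c
import Fermat.Agent.H47.ThaineC3d
import Fermat.Agent.H34.PrimesOver
import Fermat.Agent.H87.S14_ThaineK

/-!
# C3: Thaine's relation (`H13.ThaineStatement`), final assembly
-/

set_option autoImplicit false

namespace Fermat.Agent.H76

/-- F-side of C3: the Thaine datum. -/
theorem thaineDatum : Fermat.Agent.H13.ThaineDatumStatement :=
  thaineDatum_of_parts Fermat.Agent.H39.thaineFieldStatement Fermat.Agent.H16.unramified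
    Fermat.Agent.H88.totallyRamifiedStatement Fermat.Agent.H47.localCongruenceStatement
    Fermat.Agent.H47.normValuationStatement Fermat.Agent.H34.primesOver

/-- **C3** (Thaine's relation). -/
theorem thaine : Fermat.Agent.H13.ThaineStatement :=
  Fermat.Agent.H87.thaine_of_datum thaineDatum

end Fermat.Agent.H76
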