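import Fermat.Agent.H76.ThaineInterfaces

/-!
# C3-a: field set-up for Thaine's relation

`F = K(ζ_ℓ)` over `K = ℚ(ζ_p)`: `F` is `p * ℓ`-cyclotomic over `ℚ`, `[F : K] = ℓ - 1`,
`Φ_ℓ` is irreducible over `K`, `Gal(F/K)` is cyclic, `N_{F/K}(ζ_ℓ - ζ_p) = 1` and Hilbert 90.
-/

set_option autoImplicit false

open scoped NumberField nonZeroDivisors
open Polynomial Algebra Finset

namespace Fermat.Agent.H76

/-- If `K/ℚ` is `p`-cyclotomic and `F/K` is `ℓ`-cyclotomic (`p ≠ ℓ` primes), then `F/ℚ` is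
`p * ℓ`-cyclotomic. -/
theorem isCyclotomicExtension_mul (p ℓ : ℕ) [Fact p.Prime] [Fact ℓ.Prime] (hℓp : ℓ ≠ p)
    (K : Type) [Field K] [NumberField K] [IsCyclotomicExtension {p} ℚ K]
    (F : Type) [Field F] [NumberField F] [Algebra K F] [IsCyclotomicExtension {ℓ} K F] :
    IsCyclotomicExtension {p * ℓ} ℚ F := by
  have hp := (Fact.out : p.Prime)
  have hℓ := (Fact.out : ℓ.Prime)
  have h1 : IsCyclotomicExtension ({p} ∪ {ℓ}) ℚ F :=
    IsCyclotomicExtension.trans {p} {ℓ} ℚ K F (algebraMap K F).injective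
  have hζp : IsPrimitiveRoot (algebraMap K F (IsCyclotomicExtension.zeta p ℚ K)) p :=
    (IsCyclotomicExtension.zeta_spec p ℚ K).map_of_injective (algebraMap K F).injective
  have hζℓ : IsPrimitiveRoot (IsCyclotomicExtension.zeta ℓ K F) ℓ :=
    IsCyclotomicExtension.zeta_spec ℓ K F
  have hcop : Nat.Coprime p ℓ := (Nat.coprime_primes hp hℓ).mpr (Ne.symm hℓp)
  have hζ : IsPrimitiveRoot
      (algebraMap K F (IsCyclotomicExtension.zeta p ℚ K) * IsCyclotomicExtension.zeta ℓ K F)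
      (p * ℓ) := by
    rw [IsPrimitiveRoot.iff_orderOf, (Commute.all _ _).orderOf_mul_eq_mul_orderOf_of_coprime
      (by rw [← hζp.eq_orderOf, ← hζℓ.eq_orderOf]; exact hcop), ← hζp.eq_orderOf,
      ← hζℓ.eq_orderOf]
  have h2 : IsCyclotomicExtension ({p} ∪ {ℓ} ∪ {p * ℓ}) ℚ F :=
    IsCyclotomicExtension.union_of_isPrimitiveRoot _ ℚ F hζ
  have h3 : IsCyclotomicExtension ({p * ℓ} ∪ {p} ∪ {ℓ}) ℚ F := by
    convert h2 using 1
    ext x
    simp only [Set.mem_union, Set.mem_singleton_iff]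
    tauto
  have h4 : IsCyclotomicExtension ({p * ℓ} ∪ {p}) ℚ F :=
    (IsCyclotomicExtension.iff_union_of_dvd ℚ F
      ⟨p * ℓ, by simp, Nat.mul_ne_zero hp.ne_zero hℓ.ne_zero, dvd_mul_left ℓ p⟩).mpr h3
  exact (IsCyclotomicExtension.iff_union_of_dvd ℚ F
      ⟨p * ℓ, by simp, Nat.mul_ne_zero hp.ne_zero hℓ.ne_zero, dvd_mul_right p ℓ⟩).mpr h4

/-- `[K(ζ_ℓ) : K] = ℓ - 1` for `K = ℚ(ζ_p)`, `ℓ ≠ p`. -/
theorem finrank_cyclotomic_tower (p ℓ : ℕ) [Fact p.Prime] [Fact ℓ.Prime] (hℓp : ℓ ≠ p)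
    (K : Type) [Field K] [NumberField K] [IsCyclotomicExtension {p} ℚ K]
    (F : Type) [Field F] [NumberField F] [Algebra K F] [IsCyclotomicExtension {ℓ} K F] :
    Module.finrank K F = ℓ - 1 := by
  have hp := (Fact.out : p.Prime)
  have hℓ := (Fact.out : ℓ.Prime)
  have : NeZero (p * ℓ) := ⟨Nat.mul_ne_zero hp.ne_zero hℓ.ne_zero⟩
  have := isCyclotomicExtension_mul p ℓ hℓp K F
  have h1 : Module.finrank ℚ F = (p * ℓ).totient :=
    IsCyclotomicExtension.finrank F (cyclotomic.irreducible_rat (NeZero.pos _))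
  have h2 : Module.finrank ℚ K = p.totient :=
    IsCyclotomicExtension.finrank K (cyclotomic.irreducible_rat (NeZero.pos _))
  have h3 := Module.finrank_mul_finrank ℚ K F
  have hcop : Nat.Coprime p ℓ := (Nat.coprime_primes hp hℓ).mpr (Ne.symm hℓp)
  rw [h1, h2, Nat.totient_mul hcop, Nat.totient_prime hp, Nat.totient_prime hℓ] at h3
  exact Nat.eq_of_mul_eq_mul_left (Nat.sub_pos_of_lt hp.one_lt) h3

/-- `Φ_ℓ` is irreducible over `K = ℚ(ζ_p)` for `ℓ ≠ p`. -/
theorem irreducible_cyclotomic_tower (p ℓ : ℕ) [Fact p.Prime] [Fact ℓ.Prime] (hℓp : ℓ ≠ p)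
    (K : Type) [Field K] [NumberField K] [IsCyclotomicExtension {p} ℚ K]
    (F : Type) [Field F] [NumberField F] [Algebra K F] [IsCyclotomicExtension {ℓ} K F] :
    Irreducible (cyclotomic ℓ K) := by
  have hℓ := (Fact.out : ℓ.Prime)
  have hζ := IsCyclotomicExtension.zeta_spec ℓ K F
  have hint : IsIntegral K (IsCyclotomicExtension.zeta ℓ K F) :=
    Algebra.IsIntegral.isIntegral _
  have hroot : aeval (IsCyclotomicExtension.zeta ℓ K F) (cyclotomic ℓ K) = 0 := by
    rw [aeval_def, ← eval_map, map_cyclotomic]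
    exact (isRoot_cyclotomic_iff (n := ℓ)).2 hζ
  have hdvd : minpoly K (IsCyclotomicExtension.zeta ℓ K F) ∣ cyclotomic ℓ K :=
    minpoly.dvd K _ hroot
  have hdeg : (minpoly K (IsCyclotomicExtension.zeta ℓ K F)).natDegree = ℓ - 1 := by
    rw [← finrank_cyclotomic_tower p ℓ hℓp K F, ← IsPrimitiveRoot.powerBasis_dim K hζ,
      PowerBasis.finrank]
  have heq : cyclotomic ℓ K = minpoly K (IsCyclotomicExtension.zeta ℓ K F) := by
    refine Polynomial.eq_of_monic_of_dvd_of_natDegree_le (minpoly.monic hint)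
      (cyclotomic.monic ℓ K) hdvd ?_
    rw [hdeg, natDegree_cyclotomic, Nat.totient_prime hℓ]
  rw [heq]
  exact minpoly.irreducible hint

/-- `N_{L/K}(ζ - a) = Φ_n(a)` for a primitive `n`-th root `ζ` in an `n`-cyclotomic extension `L/K`
with `Φ_n` irreducible over `K` and `n > 2`. -/
theorem norm_sub_algebraMap_eq_eval_cyclotomic {n : ℕ} [NeZero n] {K L : Type*} [Field K]
    [Field L] [Algebra K L] {ζ : L} (hζ : IsPrimitiveRoot ζ n) [IsCyclotomicExtension {n} K L]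
    (h : 2 < n) (hirr : Irreducible (cyclotomic n K)) (a : K) :
    Algebra.norm K (ζ - algebraMap K L a) = eval a (cyclotomic n K) := by
  have := IsCyclotomicExtension.neZero' n K L
  let E := AlgebraicClosure L
  obtain ⟨z, hz⟩ := IsAlgClosed.exists_root _ (degree_cyclotomic_pos n E (NeZero.pos _)).ne.symm
  apply (algebraMap K E).injective
  let := IsCyclotomicExtension.finiteDimensional {n} K L
  let := IsCyclotomicExtension.isGalois {n} K L
  rw [norm_eq_prod_embeddings]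
  have hrew : ∀ σ : L →ₐ[K] E, σ (ζ - algebraMap K L a) = -1 * (algebraMap K E a - σ ζ) := by
    intro σ
    rw [map_sub, AlgHom.commutes]
    ring
  simp_rw [hrew]
  rw [prod_mul_distrib, prod_const, Finset.card_univ, AlgHom.card,
    IsCyclotomicExtension.finrank L hirr, (Nat.totient_even h).neg_one_pow, one_mul]
  have Hprod : (Finset.univ.prod fun σ : L →ₐ[K] E => algebraMap K E a - σ ζ) =
      eval (algebraMap K E a) (cyclotomic' n E) := by
    rw [cyclotomic', eval_prod, ← @Finset.prod_attach E E, ← univ_eq_attach]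
    refine Fintype.prod_equiv (hζ.embeddingsEquivPrimitiveRoots E hirr) _ _ fun σ => ?_
    simp
  have : NeZero (n : E) := NeZero.of_faithfulSMul K _ n
  rw [Hprod, cyclotomic', ← cyclotomic_eq_prod_X_sub_primitiveRoots (isRoot_cyclotomic_iff.1 hz),
    ← map_cyclotomic n (algebraMap K E), eval_map_algebraMap, aeval_algebraMap_apply,
    aeval_def]
  rfl

/-- `Φ_ℓ(ζ) = 1` for a primitive `p`-th root of unity `ζ` when `ℓ ≡ 1 mod p`. -/
theorem eval_cyclotomic_prime_eq_one (p ℓ : ℕ) [Fact p.Prime] [Fact ℓ.Prime] (hmod : ℓ % p = 1)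
    {K : Type*} [Field K] {ζ : K} (hζ : IsPrimitiveRoot ζ p) :
    eval ζ (cyclotomic ℓ K) = 1 := by
  have hp := (Fact.out : p.Prime)
  rw [cyclotomic_prime, eval_geom_sum]
  have h1 : ζ - 1 ≠ 0 := sub_ne_zero.mpr (hζ.ne_one hp.one_lt)
  have h2 : ζ ^ ℓ = ζ := by
    conv_lhs => rw [← Nat.div_add_mod ℓ p, hmod, pow_add, pow_mul, hζ.pow_eq_one, one_pow,
      one_mul, pow_one]
  have h3 := mul_geom_sum ζ ℓ
  rw [h2] at h3
  exact mul_left_cancel₀ h1 (h3.trans (mul_one _).symm)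

end Fermat.Agent.H76
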