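import Fermat.Agent.H76.ThaineField

set_option autoImplicit false

open scoped NumberField nonZeroDivisors
open Polynomial Algebra Finset

namespace Fermat.Agent.H76

open Fermat.Agent.H13

/-- `Gal(F/K)` is cyclic with a generator acting on `ℓ`-th roots of unity by `x ↦ x ^ s`. -/
theorem exists_generator_cyclotomic_tower (p ℓ : ℕ) [Fact p.Prime] [Fact ℓ.Prime] (hℓp : ℓ ≠ p)
    (K : Type) [Field K] [NumberField K] [IsCyclotomicExtension {p} ℚ K]
    (F : Type) [Field F] [NumberField F] [Algebra K F] [IsCyclotomicExtension {ℓ} K F] :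
    ∃ (τ : F ≃ₐ[K] F) (s : ℕ), (∀ x, x ∈ Subgroup.zpowers τ) ∧
      ∀ z : F, z ^ ℓ = 1 → τ z = z ^ s := by
  have hirr := irreducible_cyclotomic_tower p ℓ hℓp K F
  obtain ⟨u, hu⟩ := IsCyclic.exists_generator (α := (ZMod ℓ)ˣ)
  let e := IsCyclotomicExtension.autEquivPow F hirr
  refine ⟨e.symm u, ((u : (ZMod ℓ)ˣ) : ZMod ℓ).val, ?_, ?_⟩
  · intro x
    obtain ⟨k, hk⟩ := Subgroup.mem_zpowers_iff.mp (hu (e x))
    rw [Subgroup.mem_zpowers_iff]
    refine ⟨k, ?_⟩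
    rw [← map_zpow, hk, MulEquiv.symm_apply_apply]
  · intro z hz
    have hζ := IsCyclotomicExtension.zeta_spec ℓ K F
    obtain ⟨j, -, rfl⟩ := hζ.eq_pow_of_pow_eq_one hz
    have h1 := hζ.autToPow_spec K (e.symm u)
    have h2 : hζ.autToPow K (e.symm u) = u := by
      have : e (e.symm u) = u := e.apply_symm_apply u
      exact this
    rw [h2] at h1
    rw [map_pow, ← h1, ← pow_mul, ← pow_mul, mul_comm]

/-- **C3-a**: the field set-up and Hilbert 90 for Thaine's relation. -/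
theorem thaineField : ThaineFieldStatement := by
  intro p ℓ _ _ hp5 K _ _ _ F _ _ _ _ hℓp hmod ζ hζ ζℓ hζℓ
  have hp := (Fact.out : p.Prime)
  have hℓ := (Fact.out : ℓ.Prime)
  have hfin := finrank_cyclotomic_tower p ℓ hℓp K F
  have hirr := irreducible_cyclotomic_tower p ℓ hℓp K F
  refine ⟨hfin, ?_⟩
  have hℓ2 : 2 < ℓ := by
    rcases Nat.lt_or_ge 2 ℓ with h | h
    · exact h
    · have h2 : ℓ = 2 := le_antisymm h hℓ.two_le
      rw [h2, Nat.mod_eq_of_lt (by omega)] at hmod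
      omega
  obtain ⟨τ, s, hτ, hτs⟩ := exists_generator_cyclotomic_tower p ℓ hℓp K F
  have : IsGalois K F := IsCyclotomicExtension.isGalois {ℓ} K F
  have hcyc : IsCyclic (F ≃ₐ[K] F) := ⟨⟨τ, hτ⟩⟩
  -- the inverse generator
  have hτinv : ∀ x, x ∈ Subgroup.zpowers τ⁻¹ := by
    intro x
    rw [Subgroup.zpowers_inv]
    exact hτ x
  -- primitive roots in the fields
  have hζK : IsPrimitiveRoot (ζ : K) p := hζ.map_of_injective (NumberField.RingOfIntegers.coe_injective)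
  have hζF : IsPrimitiveRoot (ζℓ : F) ℓ := hζℓ.map_of_injective (NumberField.RingOfIntegers.coe_injective)
  -- norm of `η = ζℓ - ζ`
  have hnorm : Algebra.norm K (algebraMap (𝓞 F) F (ζℓ - algebraMap (𝓞 K) (𝓞 F) ζ)) = 1 := by
    have h1 := norm_sub_algebraMap_eq_eval_cyclotomic hζF hℓ2 hirr (ζ : K)
    rw [eval_cyclotomic_prime_eq_one p ℓ hmod hζK] at h1
    rw [← h1]
    congr 1
  obtain ⟨β, hβ, hβeq⟩ := groupCohomology.exists_mul_galRestrict_of_norm_eq_one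
    (A := 𝓞 K) (B := 𝓞 F) hτinv hnorm
  -- apply `τ`
  have hτζℓ : galRestrict (𝓞 K) K F (𝓞 F) τ ζℓ = ζℓ ^ s := by
    apply NumberField.RingOfIntegers.coe_injective
    have := algebraMap_galRestrict_apply (𝓞 K) τ ζℓ
    rw [show (algebraMap (𝓞 F) F) ζℓ = (ζℓ : F) from rfl] at this
    rw [this, hτs _ hζF.pow_eq_one]
    simp
  refine ⟨τ, s, β, ζℓ ^ s - algebraMap (𝓞 K) (𝓞 F) ζ, hτ, hτζℓ, hβ, ?_, ?_⟩
  · have h2 := congrArg (galRestrict (𝓞 K) K F (𝓞 F) τ) hβeq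
    rw [map_mul, map_sub, hτζℓ, AlgEquiv.commutes, map_inv, ← AlgEquiv.mul_apply,
      mul_inv_cancel, AlgEquiv.one_apply] at h2
    exact h2.symm
  · have : ζℓ ^ s - algebraMap (𝓞 K) (𝓞 F) ζ - (1 - algebraMap (𝓞 K) (𝓞 F) ζ) = ζℓ ^ s - 1 := by
      ring
    rw [this]
    exact sub_one_dvd_pow_sub_one ζℓ s

end Fermat.Agent.H76
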